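/-
S17lib / Chev / Extend  (helper2) — Project G (S17), brick "x ↦ A" for DIV/SPEC and CCR:

Let `Ω / L` be an algebraic extension of fields, `O` a valuation subring of `L` containing a field
of constants `k` which is algebraically closed and maps ONTO the residue field of `O`.  Then there is
a valuation subring `A` of `Ω` with `A ∩ L = O`, containing `k`, whose residue field is again `k`.

(Chevalley's extension theorem `LocalSubring.exists_le_valuationSubring` + maximality of valuation
rings under domination + a primitive algebraic equation reduced modulo `𝔪_A`.)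
Mathlib only.
-/
import Mathlib

set_option autoImplicit false

noncomputable section

namespace Fermat.Agent.S17lib.Chev

open Polynomial

section Dominate

variable {L Ω : Type*} [Field L] [Field Ω] [Algebra L Ω]

/-- **Chevalley**: a valuation subring `O` of `L` extends to a valuation subring `B` of `Ω ⊇ L`
dominating it. -/
theorem exists_dominating (O : ValuationSubring L) :
    ∃ B : ValuationSubring Ω, (∀ a ∈ O, algebraMap L Ω a ∈ B) ∧
      ∀ a ∈ O.nonunits, algebraMap L Ω a ∈ B.nonunits := by
  obtain ⟨B, hle, hloc⟩ :=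
    (LocalSubring.map (algebraMap L Ω) O.toLocalSubring).exists_le_valuationSubring
  have hmem : ∀ a ∈ O, algebraMap L Ω a ∈ B := fun a ha => hle ⟨a, ha, rfl⟩
  refine ⟨B, hmem, fun a ha => ?_⟩
  rw [ValuationSubring.mem_nonunits_iff_or] at ha ⊢
  rcases ha with rfl | ha
  · left
    exact map_zero _
  · by_cases ha0 : a = 0
    · left
      rw [ha0, map_zero]
    right
    intro hinv
    have haO : a ∈ O := (O.mem_or_inv_mem a).resolve_right ha
    -- `f a` is a unit of `B`, hence of the image of `O`
    have hunitB : IsUnit (Subring.inclusion hle ⟨algebraMap L Ω a, ⟨a, haO, rfl⟩⟩) := by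
      refine isUnit_iff_exists_inv.mpr ⟨⟨(algebraMap L Ω a)⁻¹, hinv⟩, Subtype.ext ?_⟩
      show algebraMap L Ω a * (algebraMap L Ω a)⁻¹ = 1
      exact mul_inv_cancel₀ ((_root_.map_ne_zero _).mpr ha0)
    have hunit := hloc.map_nonunit _ hunitB
    obtain ⟨⟨_, b, hbO, rfl⟩, hb⟩ := isUnit_iff_exists_inv.mp hunit
    have hab : algebraMap L Ω a * algebraMap L Ω b = 1 := congrArg Subtype.val hb
    rw [← map_mul, ← map_one (algebraMap L Ω)] at hab
    have hab' : a * b = 1 := (algebraMap L Ω).injective hab
    have : a⁻¹ = b := by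
      rw [eq_comm, ← mul_eq_one_iff_eq_inv₀ ha0, mul_comm]
      exact hab'
    exact ha (this ▸ hbO)

/-- a dominating valuation subring restricts to `O` -/
theorem comap_eq_of_dominating {O : ValuationSubring L} {B : ValuationSubring Ω}
    (h1 : ∀ a ∈ O, algebraMap L Ω a ∈ B)
    (h2 : ∀ a ∈ O.nonunits, algebraMap L Ω a ∈ B.nonunits) :
    B.comap (algebraMap L Ω) = O := by
  ext y
  rw [ValuationSubring.mem_comap]
  constructor
  · intro hy
    by_contra hyO
    have hy0 : y ≠ 0 := by
      rintro rfl
      exact hyO O.zero_mem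
    have hinv : y⁻¹ ∈ O.nonunits := by
      rw [ValuationSubring.mem_nonunits_iff_or]
      right
      rwa [inv_inv]
    have := h2 _ hinv
    rw [ValuationSubring.mem_nonunits_iff_or] at this
    rcases this with h0 | h0
    · exact inv_ne_zero hy0 ((map_eq_zero _).mp h0)
    · apply h0
      rw [map_inv₀, inv_inv]
      exact hy
  · exact h1 y

end Dominate

section Residue

variable {k L Ω : Type*} [Field k] [Field L] [Field Ω] [Algebra k L] [Algebra L Ω] [Algebra k Ω]
  [IsScalarTower k L Ω]

/-- nonzero constants are units of a valuation subring containing the constants -/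
theorem valuation_const_eq_one {B : ValuationSubring Ω} (hk : ∀ c : k, algebraMap k Ω c ∈ B)
    {c : k} (hc : c ≠ 0) : B.valuation (algebraMap k Ω c) = 1 := by
  have h1 : B.valuation (algebraMap k Ω c) ≤ 1 := (B.valuation_le_one_iff _).mpr (hk c)
  have h2 : B.valuation (algebraMap k Ω c⁻¹) ≤ 1 := (B.valuation_le_one_iff _).mpr (hk c⁻¹)
  have h3 : B.valuation (algebraMap k Ω c) * B.valuation (algebraMap k Ω c⁻¹) = 1 := by
    rw [← map_mul, ← map_mul, mul_inv_cancel₀ hc, map_one, map_one]
  by_contra hne
  have hlt : B.valuation (algebraMap k Ω c) < 1 := lt_of_le_of_ne h1 hne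
  have : B.valuation (algebraMap k Ω c) * B.valuation (algebraMap k Ω c⁻¹) < 1 :=
    mul_lt_one_of_lt_of_le hlt h2
  rw [h3] at this
  exact lt_irrefl _ this

/-- **the residue field stays `k`**: if `B` dominates `O`, `Ω / L` is algebraic, `k` is algebraically
closed and maps onto the residue field of `O`, then `k` maps onto the residue field of `B`. -/
theorem residue_const [Algebra.IsAlgebraic L Ω] [IsAlgClosed k] {O : ValuationSubring L}
    {B : ValuationSubring Ω} (hk : ∀ c : k, algebraMap k L c ∈ O)
    (hres : ∀ a ∈ O, ∃ c : k, a - algebraMap k L c ∈ O.nonunits)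
    (h1 : ∀ a ∈ O, algebraMap L Ω a ∈ B)
    (h2 : ∀ a ∈ O.nonunits, algebraMap L Ω a ∈ B.nonunits) {b : Ω} (hb : b ∈ B) :
    ∃ c : k, b - algebraMap k Ω c ∈ B.nonunits := by
  classical
  have hkB : ∀ c : k, algebraMap k Ω c ∈ B := fun c => by
    rw [IsScalarTower.algebraMap_apply k L Ω]
    exact h1 _ (hk c)
  -- an algebraic equation for `b`
  obtain ⟨p, hp0, hpb⟩ := Algebra.IsAlgebraic.isAlgebraic (R := L) b
  -- the coefficient of maximal valuation
  have hsne : p.support.Nonempty := by
    rw [Finset.nonempty_iff_ne_empty, Ne, Polynomial.support_eq_empty]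
    exact hp0
  obtain ⟨j, hjs, hjmax⟩ := Finset.exists_max_image p.support (fun i => O.valuation (p.coeff i)) hsne
  have hcj : p.coeff j ≠ 0 := Polynomial.mem_support_iff.mp hjs
  -- normalised coefficients
  set a : ℕ → L := fun i => (p.coeff j)⁻¹ * p.coeff i with ha
  have haO : ∀ i, a i ∈ O := by
    intro i
    rw [← O.valuation_le_one_iff, ha]
    simp only
    rw [map_mul, map_inv₀]
    by_cases hi : i ∈ p.support
    · have h3 := hjmax i hi
      have hpos : 0 < O.valuation (p.coeff j) := (Valuation.pos_iff _).mpr hcj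
      rw [inv_mul_le_iff₀ hpos, mul_one]
      exact h3
    · rw [Polynomial.notMem_support_iff.mp hi, map_zero, mul_zero]
      exact zero_le_one
  have haj : a j = 1 := by
    rw [ha]
    simp only
    exact inv_mul_cancel₀ hcj
  -- the constants `γ i ≡ a i`
  have hγex : ∀ i, ∃ c : k, a i - algebraMap k L c ∈ O.nonunits := fun i => hres _ (haO i)
  set γ : ℕ → k := fun i => if i = j then 1 else (hγex i).choose with hγ
  have hγspec : ∀ i, a i - algebraMap k L (γ i) ∈ O.nonunits := by
    intro i
    rw [hγ]
    simp only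
    split_ifs with hij
    · rw [hij, haj, map_one, sub_self]
      rw [ValuationSubring.mem_nonunits_iff_or]
      exact Or.inl rfl
    · exact (hγex i).choose_spec
  -- the polynomial over `k`
  set n := p.natDegree with hn
  set q : k[X] := ∑ i ∈ Finset.range (n + 1), C (γ i) * X ^ i with hq
  have hjn : j ≤ n := Polynomial.le_natDegree_of_mem_supp j hjs
  have hqj : q.coeff j = 1 := by
    rw [hq, Polynomial.finsetSum_coeff]
    simp only [Polynomial.coeff_C_mul_X_pow]
    rw [Finset.sum_ite_eq, if_pos (Finset.mem_range.mpr (by omega)), hγ]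
    simp
  have hq0 : q ≠ 0 := by
    intro h0
    rw [h0, Polynomial.coeff_zero] at hqj
    exact zero_ne_one hqj
  -- `q(b)` is a nonunit of `B`
  have hqb : B.valuation (aeval b q) < 1 := by
    have hpb' : ∑ i ∈ Finset.range (n + 1), algebraMap L Ω (a i) * b ^ i = 0 := by
      have h3 : aeval b p = ∑ i ∈ Finset.range (n + 1), algebraMap L Ω (p.coeff i) * b ^ i := by
        rw [Polynomial.aeval_eq_sum_range b]
        refine Finset.sum_congr rfl fun i _ => ?_
        rw [Algebra.smul_def]
      rw [hpb] at h3
      have h4 : ∑ i ∈ Finset.range (n + 1), algebraMap L Ω (a i) * b ^ i =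
          algebraMap L Ω (p.coeff j)⁻¹ * ∑ i ∈ Finset.range (n + 1),
            algebraMap L Ω (p.coeff i) * b ^ i := by
        rw [Finset.mul_sum]
        refine Finset.sum_congr rfl fun i _ => ?_
        rw [ha]
        simp only
        rw [map_mul, mul_assoc]
      rw [h4, ← h3, mul_zero]
    have hqb1 : aeval b q = ∑ i ∈ Finset.range (n + 1),
        (algebraMap k Ω (γ i) - algebraMap L Ω (a i)) * b ^ i := by
      have : aeval b q = ∑ i ∈ Finset.range (n + 1), algebraMap k Ω (γ i) * b ^ i := by
        rw [hq, map_sum]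
        refine Finset.sum_congr rfl fun i _ => ?_
        rw [map_mul, aeval_C, map_pow, aeval_X]
      rw [this, ← sub_zero (∑ i ∈ Finset.range (n + 1), algebraMap k Ω (γ i) * b ^ i), ← hpb',
        ← Finset.sum_sub_distrib]
      refine Finset.sum_congr rfl fun i _ => ?_
      ring
    rw [hqb1]
    refine Valuation.map_sum_lt _ one_ne_zero fun i _ => ?_
    have h3 : algebraMap k Ω (γ i) - algebraMap L Ω (a i) =
        -algebraMap L Ω (a i - algebraMap k L (γ i)) := by
      rw [map_sub, ← IsScalarTower.algebraMap_apply k L Ω]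
      ring
    have h4 : B.valuation (algebraMap k Ω (γ i) - algebraMap L Ω (a i)) < 1 := by
      rw [h3, Valuation.map_neg]
      exact h2 _ (hγspec i)
    have h5 : B.valuation (b ^ i) ≤ 1 := by
      rw [map_pow]
      exact pow_le_one₀ zero_le ((B.valuation_le_one_iff b).mpr hb)
    rw [map_mul]
    exact mul_lt_one_of_lt_of_le h4 h5
  -- `q` splits over `k`
  have hsplit := IsAlgClosed.splits q
  have hfac : aeval b q = algebraMap k Ω q.leadingCoeff *
      (q.roots.map fun r => b - algebraMap k Ω r).prod := by
    conv_lhs => rw [hsplit.eq_prod_roots]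
    rw [map_mul, aeval_C, map_multiset_prod, Multiset.map_map]
    congr 2
    refine Multiset.map_congr rfl fun r _ => ?_
    simp
  by_contra hcon
  push Not at hcon
  have hone : ∀ c : k, B.valuation (b - algebraMap k Ω c) = 1 := by
    intro c
    have hle : B.valuation (b - algebraMap k Ω c) ≤ 1 :=
      (B.valuation_le_one_iff _).mpr (sub_mem hb (hkB c))
    exact le_antisymm hle (not_lt.mp (hcon c))
  have hlc : B.valuation (algebraMap k Ω q.leadingCoeff) = 1 :=
    valuation_const_eq_one hkB (Polynomial.leadingCoeff_ne_zero.mpr hq0)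
  rw [hfac, map_mul, hlc, one_mul, map_multiset_prod, Multiset.map_map] at hqb
  have hprod : (q.roots.map ((B.valuation : Ω → B.ValueGroup) ∘ fun r => b - algebraMap k Ω r)).prod
      = 1 := by
    refine Multiset.prod_eq_one fun x hx => ?_
    obtain ⟨r, -, rfl⟩ := Multiset.mem_map.mp hx
    exact hone r
  rw [hprod] at hqb
  exact lt_irrefl _ hqb

/-- **the brick "x ↦ A"**: a valuation subring `O` of `L` with residue field the algebraically
closed field of constants `k` extends to a valuation subring `A` of the algebraic extension `Ω`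
with `A ∩ L = O`, `k ⊆ A` and residue field `k`. -/
theorem exists_valuationSubring_extension [Algebra.IsAlgebraic L Ω] [IsAlgClosed k]
    (O : ValuationSubring L) (hk : ∀ c : k, algebraMap k L c ∈ O)
    (hres : ∀ a ∈ O, ∃ c : k, a - algebraMap k L c ∈ O.nonunits) :
    ∃ A : ValuationSubring Ω, A.comap (algebraMap L Ω) = O ∧ (∀ c : k, algebraMap k Ω c ∈ A) ∧
      ∀ a ∈ A, ∃ c : k, a - algebraMap k Ω c ∈ A.nonunits := by
  obtain ⟨B, h1, h2⟩ := exists_dominating (Ω := Ω) O
  refine ⟨B, comap_eq_of_dominating h1 h2, fun c => ?_, fun a ha => residue_const hk hres h1 h2 ha⟩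
  rw [IsScalarTower.algebraMap_apply k L Ω]
  exact h1 _ (hk c)

/-- the residue field of `A` is `k`, in instance form -/
theorem surjective_algebraMap_residueField (A : ValuationSubring Ω) [Algebra k A]
    [IsScalarTower k A Ω] (h : ∀ a ∈ A, ∃ c : k, a - algebraMap k Ω c ∈ A.nonunits) :
    Function.Surjective (algebraMap k (IsLocalRing.ResidueField A)) := by
  intro y
  obtain ⟨a, rfl⟩ := IsLocalRing.residue_surjective y
  obtain ⟨c, hc⟩ := h a a.2
  refine ⟨c, ?_⟩
  rw [IsScalarTower.algebraMap_apply k A (IsLocalRing.ResidueField A)]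
  show IsLocalRing.residue A (algebraMap k A c) = IsLocalRing.residue A a
  rw [eq_comm, ← sub_eq_zero, ← map_sub, IsLocalRing.residue_eq_zero_iff]
  have hcoe : ((a - algebraMap k A c : A) : Ω) = (a : Ω) - algebraMap k Ω c := by
    rw [IsScalarTower.algebraMap_apply k A Ω]
    rfl
  rw [← hcoe] at hc
  exact (ValuationSubring.mem_nonunits_iff_exists_mem_maximalIdeal.mp hc).2

end Residue

end Fermat.Agent.S17lib.Chev
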