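/-
S17lib / Chev / Place  (helper2) — Project G (S17): the brick "x ↦ A" for a `Place`.

`x : Place k L` of degree one (`k` algebraically closed), `Ω / L` algebraic:
there is a valuation subring `A` of `Ω` with `A ∩ L = 𝒪_x`, `k ⊆ A`, residue field `k`.
-/
import Mathlib
import Fermat.Agent.S17lib.Chev.Extend
import Fermat.Agent.S18lib.Cech.CurveBasics
import Fermat.Agent.ProgramR.FunctionField.PlaceDedekind

set_option autoImplicit false
set_option linter.unusedSectionVars false

noncomputable section

namespace Fermat.Agent.S17lib.Chev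

open AlgebraicCurve Fermat.Agent.S18lib Fermat.Agent.ProgramR

variable {k L Ω : Type*} [Field k] [Field L] [Field Ω] [Algebra k L] [Algebra L Ω] [Algebra k Ω]
  [IsScalarTower k L Ω]

/-- membership in the nonunits of the valuation ring of a place, via `ord` -/
theorem mem_nonunits_place_iff (x : Place k L) (y : L) :
    y ∈ x.toValuationSubring.nonunits ↔ y = 0 ∨ 0 < x.ord y := by
  rw [ValuationSubring.mem_nonunits_iff_or]
  refine or_congr_right' fun hy => ?_
  rw [FF.mem_iff_ord_nonneg, x.ord_inv]
  omega

/-- a place of degree one has residue field `k` -/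
theorem place_residue (x : Place k L) (hx : x.deg = 1) :
    ∀ a ∈ x.toValuationSubring, ∃ c : k, a - algebraMap k L c ∈ x.toValuationSubring.nonunits := by
  intro a ha
  obtain ⟨c, hc⟩ := Cech.exists_value_of_deg_eq_one x hx ha
  refine ⟨c, ?_⟩
  rw [mem_nonunits_place_iff]
  rcases hc with hc | hc
  · exact Or.inl (sub_eq_zero.mpr hc)
  · exact Or.inr (by omega)

/-- **"x ↦ A"** for a place of degree one -/
theorem exists_valuationSubring_over_place [Algebra.IsAlgebraic L Ω] [IsAlgClosed k]
    (x : Place k L) (hx : x.deg = 1) :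
    ∃ A : ValuationSubring Ω, A.comap (algebraMap L Ω) = x.toValuationSubring ∧
      (∀ c : k, algebraMap k Ω c ∈ A) ∧ ∀ a ∈ A, ∃ c : k, a - algebraMap k Ω c ∈ A.nonunits :=
  exists_valuationSubring_extension x.toValuationSubring x.algebraMap_mem' (place_residue x hx)

/-- the compatibility used for `LiesOver`: `f ∈ 𝒪_x ↔ f ∈ A` for `f ∈ L` -/
theorem mem_iff_of_comap_eq {A : ValuationSubring Ω} {x : Place k L}
    (h : A.comap (algebraMap L Ω) = x.toValuationSubring) (f : L) :
    f ∈ x.toValuationSubring ↔ algebraMap L Ω f ∈ A := by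
  rw [← h, ValuationSubring.mem_comap]

/-- values: if `f ∈ L` has the value `c` at `x`, then `f - c ∈ 𝔪_A` -/
theorem sub_mem_nonunits_of_ord_pos {A : ValuationSubring Ω} {x : Place k L}
    (h : A.comap (algebraMap L Ω) = x.toValuationSubring) {f : L} {c : k}
    (hf : f = algebraMap k L c ∨ 0 < x.ord (f - algebraMap k L c)) :
    algebraMap L Ω f - algebraMap k Ω c ∈ A.nonunits := by
  have h1 : f - algebraMap k L c ∈ x.toValuationSubring.nonunits := by
    rw [mem_nonunits_place_iff]
    rcases hf with hf | hf
    · exact Or.inl (sub_eq_zero.mpr hf)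
    · exact Or.inr hf
  rw [ValuationSubring.mem_nonunits_iff_or] at h1 ⊢
  have hmap : algebraMap L Ω f - algebraMap k Ω c = algebraMap L Ω (f - algebraMap k L c) := by
    rw [map_sub, ← IsScalarTower.algebraMap_apply k L Ω]
  rw [hmap]
  rcases h1 with h1 | h1
  · left
    rw [h1, map_zero]
  · right
    rw [← map_inv₀, ← mem_iff_of_comap_eq h]
    exact h1

end Fermat.Agent.S17lib.Chev
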