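/-
S17lib / Chev / Inst  (helper2) — Project G (S17): the brick "x ↦ A", INSTANCE FORM.

For a valuation subring `A` of `Ω` containing the constants `k` and with residue field `k`:
the structures `Algebra k A`, `IsScalarTower k A Ω`, `Algebra (ResidueField A) Fk`,
`IsScalarTower k (ResidueField A) Fk` consumed by the constant-curve reduction (block CCR), and the
packaged existence statement over a place `x` of `L` of degree one.
-/
import Mathlib
import Fermat.Agent.S17lib.Chev.Place

set_option autoImplicit false
set_option linter.unusedSectionVars false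
set_option linter.style.haveILetI false

noncomputable section

namespace Fermat.Agent.S17lib.Chev

open AlgebraicCurve IsLocalRing

variable {k Ω : Type*} [Field k] [Field Ω] [Algebra k Ω]

/-- the `k`-algebra structure of a valuation subring containing the constants -/
@[reducible] def algebraOfMem (A : ValuationSubring Ω) (hk : ∀ c : k, algebraMap k Ω c ∈ A) :
    Algebra k A :=
  ((algebraMap k Ω).codRestrict A.toSubring hk).toAlgebra

theorem algebraOfMem_coe (A : ValuationSubring Ω) (hk : ∀ c : k, algebraMap k Ω c ∈ A) (c : k) :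
    letI := algebraOfMem A hk
    ((algebraMap k A c : A) : Ω) = algebraMap k Ω c := rfl

theorem isScalarTower_ofMem (A : ValuationSubring Ω) (hk : ∀ c : k, algebraMap k Ω c ∈ A) :
    letI := algebraOfMem A hk
    IsScalarTower k A Ω := by
  letI := algebraOfMem A hk
  exact IsScalarTower.of_algebraMap_eq fun c => rfl

/-- the residue field is `k` (instance form of `surjective_algebraMap_residueField`) -/
theorem surjective_residue_ofMem (A : ValuationSubring Ω) (hk : ∀ c : k, algebraMap k Ω c ∈ A)
    (h : ∀ a ∈ A, ∃ c : k, a - algebraMap k Ω c ∈ A.nonunits) :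
    letI := algebraOfMem A hk
    Function.Surjective (algebraMap k (ResidueField A)) := by
  letI := algebraOfMem A hk
  haveI := isScalarTower_ofMem A hk
  exact surjective_algebraMap_residueField A h

/-- `k ≃ ResidueField A` -/
def resEquivOfMem (A : ValuationSubring Ω) (hk : ∀ c : k, algebraMap k Ω c ∈ A)
    (h : ∀ a ∈ A, ∃ c : k, a - algebraMap k Ω c ∈ A.nonunits) :
    letI := algebraOfMem A hk
    k ≃+* ResidueField A :=
  letI := algebraOfMem A hk
  RingEquiv.ofBijective (algebraMap k (ResidueField A))
    ⟨(algebraMap k (ResidueField A)).injective, surjective_residue_ofMem A hk h⟩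

theorem resEquivOfMem_apply (A : ValuationSubring Ω) (hk : ∀ c : k, algebraMap k Ω c ∈ A)
    (h : ∀ a ∈ A, ∃ c : k, a - algebraMap k Ω c ∈ A.nonunits) (c : k) :
    letI := algebraOfMem A hk
    resEquivOfMem A hk h c = algebraMap k (ResidueField A) c := rfl

/-- the structure of algebra over the residue field of `A` on a `k`-algebra `Fk` -/
@[reducible] def algebraResidue (A : ValuationSubring Ω) (hk : ∀ c : k, algebraMap k Ω c ∈ A)
    (h : ∀ a ∈ A, ∃ c : k, a - algebraMap k Ω c ∈ A.nonunits)
    (Fk : Type*) [Field Fk] [Algebra k Fk] : Algebra (ResidueField A) Fk :=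
  ((algebraMap k Fk).comp ((resEquivOfMem A hk h).symm : ResidueField A →+* k)).toAlgebra

theorem isScalarTower_residue (A : ValuationSubring Ω) (hk : ∀ c : k, algebraMap k Ω c ∈ A)
    (h : ∀ a ∈ A, ∃ c : k, a - algebraMap k Ω c ∈ A.nonunits)
    (Fk : Type*) [Field Fk] [Algebra k Fk] :
    letI := algebraOfMem A hk
    letI := algebraResidue A hk h Fk
    IsScalarTower k (ResidueField A) Fk := by
  letI := algebraOfMem A hk
  letI := algebraResidue A hk h Fk
  refine IsScalarTower.of_algebraMap_eq fun c => ?_
  show algebraMap k Fk c = algebraMap k Fk ((resEquivOfMem A hk h).symm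
    (algebraMap k (ResidueField A) c))
  rw [← resEquivOfMem_apply A hk h c, RingEquiv.symm_apply_apply]

theorem algebraMap_residue_apply (A : ValuationSubring Ω) (hk : ∀ c : k, algebraMap k Ω c ∈ A)
    (h : ∀ a ∈ A, ∃ c : k, a - algebraMap k Ω c ∈ A.nonunits)
    (Fk : Type*) [Field Fk] [Algebra k Fk] (c : k) :
    letI := algebraOfMem A hk
    letI := algebraResidue A hk h Fk
    algebraMap (ResidueField A) Fk (algebraMap k (ResidueField A) c) = algebraMap k Fk c := by
  letI := algebraOfMem A hk
  letI := algebraResidue A hk h Fk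
  haveI := isScalarTower_residue A hk h Fk
  exact (IsScalarTower.algebraMap_apply k (ResidueField A) Fk c).symm

section Place

variable {L : Type*} [Field L] [Algebra k L] [Algebra L Ω] [IsScalarTower k L Ω]

/-- **"x ↦ A", clause form**: over a place `x` of degree one of `L / k` (`k` algebraically closed,
`Ω / L` algebraic) there is a valuation subring `A` of `Ω` with `A ∩ L = 𝒪_x`, `k ⊆ A` and
residue field `k`. -/
theorem exists_valuationSubring_over_place' [Algebra.IsAlgebraic L Ω] [IsAlgClosed k]
    (x : Place k L) (hx : x.deg = 1) :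
    ∃ A : ValuationSubring Ω, (∀ l : L, algebraMap L Ω l ∈ A ↔ l ∈ x.toValuationSubring) ∧
      (∀ l : L, algebraMap L Ω l ∈ A.nonunits ↔ l = 0 ∨ 0 < x.ord l) ∧
      (∀ c : k, algebraMap k Ω c ∈ A) ∧ ∀ a ∈ A, ∃ c : k, a - algebraMap k Ω c ∈ A.nonunits := by
  obtain ⟨A, hA, hk, hres⟩ := exists_valuationSubring_over_place (Ω := Ω) x hx
  refine ⟨A, fun l => (mem_iff_of_comap_eq hA l).symm, fun l => ?_, hk, hres⟩
  rw [← mem_nonunits_place_iff, ← hA]
  rw [ValuationSubring.mem_nonunits_iff_or, ValuationSubring.mem_nonunits_iff_or]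
  simp only [ValuationSubring.mem_comap, map_eq_zero, map_inv₀]

/-- **"x ↦ A", instance form**: the same with the `k`-algebra structures and the surjectivity
`k → ResidueField A` of block CCR. -/
theorem exists_valuationSubring_inst [Algebra.IsAlgebraic L Ω] [IsAlgClosed k]
    (x : Place k L) (hx : x.deg = 1) :
    ∃ (A : ValuationSubring Ω) (hk : ∀ c : k, algebraMap k Ω c ∈ A),
      (∀ l : L, algebraMap L Ω l ∈ A ↔ l ∈ x.toValuationSubring) ∧
      (∀ a ∈ A, ∃ c : k, a - algebraMap k Ω c ∈ A.nonunits) ∧
      (letI := algebraOfMem A hk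
       Function.Surjective (algebraMap k (ResidueField A))) := by
  obtain ⟨A, hA, -, hk, hres⟩ := exists_valuationSubring_over_place' (Ω := Ω) x hx
  exact ⟨A, hk, hA, hres, surjective_residue_ofMem A hk hres⟩

end Place

end Fermat.Agent.S17lib.Chev
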